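import Fermat.Agent.Ribet.H714.DictAsm
import Fermat.Agent.Ribet.H573.SplitLift
import Fermat.Agent.A2.IF.H429.IF
import Fermat.Agent.A2.T1.H669.T1Core

/-!
# RIBET, wall at `p`, target S2 — leaf DICT for `𝒮 = H884.splitPart` (helper714)

`dictFor_of_mod : MOD at (A, ·, M', p) ⟹ H103.S2.DictFor p M' A (H884.splitPart p M' A)`.

Input MOD = the sub-assemblies `S1`–`S4`, `Sτ` of `A2/Mod/Asm.lean` and `Mod.GoodRedHyp` at every
good level `E` of `A` (exactly the hypotheses of `A2.Mod.modSSData_of_parts`; the leaves L1, L2,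
L4, L6, L8 are on main and are discharged here).

Proof.  `x ∈ 𝒮` has a Kummer generator `f` with `SplitGen` (`H884.splitClosed`), hence
`f ∈ ℚ̄ˣ (F̄ˣ)^p (1 + 𝔪_{V∞})` and `w_N f ∈ ℚ̄ˣ (F̄ˣ)^p (1 + 𝔪_{V∞})` (`H573.splitGen_redPow`).
The constants are `p`-th powers in `ℚ̄`; descend `f` and the two `p`-th roots to a good level `E`
(`T1.H669.exists_finset_descent`, `IF.H429.exists_goodField`), glue the two roots by weak
approximation for `V∞ ≠ V₀` (`DictApprox`), and get a Kummer function `y ∈ F_{N,E}` of `x` with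
`y ≡ 1` on both components of both standard charts (`DictLevel`, `DictLoc`).  Purity at every
closed point is then `A2.Alg.H609.pureAt_of_isSplit` (no hypothesis on the exponent).

So the Kummer function delivered for `x ∈ 𝒮` is even `IsSplit` with constant `1` on both charts
(`splitRedAt_of_level`): the statement `RedPowAt` holds with `g = 1`.
-/

set_option autoImplicit false
set_option linter.style.haveILetI false
set_option linter.unusedSectionVars false
set_option synthInstance.maxHeartbeats 400000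
set_option maxHeartbeats 4000000

noncomputable section

namespace Fermat.Agent.Ribet.H714

open AlgebraicCurve ModularCurve
open Fermat.Agent.A2 Fermat.Agent.A2.Alg
open Fermat.Agent.A2.T1.H669 (iota iota_ne_zero iota_algebraMap iota_injective)
open Fermat.Agent.Ribet.H103.S2

/-- **MOD at `(A, M, q)`**: the sub-assemblies of `A2/Mod/Asm.lean` at every good level. -/
structure ModAt (A : ValuationSubring (AlgebraicClosure ℚ)) (M q : ℕ) [NeZero M] [NeZero q] :
    Prop where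
  s1 : ∀ (E : IntermediateField ℚ (AlgebraicClosure ℚ)) (w : RE A E), GoodField A E →
    Mod.S1Statement A E M q w
  s2 : ∀ (E : IntermediateField ℚ (AlgebraicClosure ℚ)) (w : RE A E), GoodField A E →
    Mod.S2Statement A E M q w
  s3 : ∀ (E : IntermediateField ℚ (AlgebraicClosure ℚ)) (w : RE A E), GoodField A E →
    Mod.S3Statement A E M q w
  s4 : ∀ (E : IntermediateField ℚ (AlgebraicClosure ℚ)) (w : RE A E), GoodField A E →
    Mod.S4Statement A E M q w
  stau : ∀ (E : IntermediateField ℚ (AlgebraicClosure ℚ)) (w : RE A E), GoodField A E →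
    Mod.StauStatement A E M q w
  good : ∀ (E : IntermediateField ℚ (AlgebraicClosure ℚ)), GoodField A E →
    Mod.GoodRedHyp A E M

section Main

variable (M q : ℕ) [NeZero M] [NeZero q]

/-- **DICT at level `N = M * q`**, from the valuation form of `SplitGen`. -/
theorem splitRedAt_of_redPow (N : ℕ) [NeZero N] (hN : N = M * q) (hqN : q ∣ N)
    (hq : q.Prime) (hqM : ¬ q ∣ M)
    (A : ValuationSubring (AlgebraicClosure ℚ)) (hA : A.LiesOverPrime q)
    (hMOD : ModAt A M q)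
    (x : JZero N) (f : ↥(modularFunctionFieldBar N))
    (hK : IsKummerFn N q x f)
    (h1 : Fermat.Agent.Ribet.H573.RedPow q A hA N hq.ne_zero f)
    (h2 : Fermat.Agent.Ribet.H573.RedPow q A hA N hq.ne_zero (Fermat.Agent.A2.H528.wF N f)) :
    SplitRedAt N q hqN A x := by
  subst hN
  set F₀ := modularFunctionFieldFull (M * q) with hF₀
  obtain ⟨c₁, hc₁, g₁, hg₁, hu₁⟩ := h1
  obtain ⟨c₂, hc₂, g₂, hg₂, hu₂⟩ := h2
  obtain ⟨κ₁, hκ₁⟩ := IsAlgClosed.exists_pow_nat_eq c₁ hq.pos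
  obtain ⟨κ₂, hκ₂⟩ := IsAlgClosed.exists_pow_nat_eq c₂ hq.pos
  have hκ₁0 : κ₁ ≠ 0 := by
    rintro rfl
    rw [zero_pow hq.ne_zero] at hκ₁
    exact hc₁ hκ₁.symm
  have hκ₂0 : κ₂ ≠ 0 := by
    rintro rfl
    rw [zero_pow hq.ne_zero] at hκ₂
    exact hc₂ hκ₂.symm
  set a : ↥(modularFunctionFieldBar (M * q)) :=
    algebraMap (AlgebraicClosure ℚ) ↥(modularFunctionFieldBar (M * q)) κ₁ * g₁ with ha
  set b : ↥(modularFunctionFieldBar (M * q)) :=
    algebraMap (AlgebraicClosure ℚ) ↥(modularFunctionFieldBar (M * q)) κ₂ *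
      Fermat.Agent.A2.H528.wF (M * q) g₂ with hb
  have hcst : ∀ κ : AlgebraicClosure ℚ, κ ≠ 0 →
      algebraMap (AlgebraicClosure ℚ) ↥(modularFunctionFieldBar (M * q)) κ ≠ 0 := fun κ hκ =>
    (map_ne_zero_iff _
      (algebraMap (AlgebraicClosure ℚ) ↥(modularFunctionFieldBar (M * q))).injective).mpr hκ
  have ha0 : a ≠ 0 := mul_ne_zero (hcst κ₁ hκ₁0) hg₁
  have hwg₂ : Fermat.Agent.A2.H528.wF (M * q) g₂ ≠ 0 := (map_ne_zero _).2 hg₂
  have hb0 : b ≠ 0 := mul_ne_zero (hcst κ₂ hκ₂0) hwg₂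
  -- descent
  obtain ⟨Sf, hSf⟩ := Fermat.Agent.A2.T1.H669.exists_finset_descent F₀ f
  obtain ⟨Sa, hSa⟩ := Fermat.Agent.A2.T1.H669.exists_finset_descent F₀ a
  obtain ⟨Sb, hSb⟩ := Fermat.Agent.A2.T1.H669.exists_finset_descent F₀ b
  classical
  obtain ⟨E, hSE, hE⟩ := Fermat.Agent.A2.IF.H429.exists_goodField q hq A hA (Sf ∪ Sa ∪ Sb)
  obtain ⟨yf, hyf⟩ := hSf E (fun s hs => hSE s (by simp [hs]))
  obtain ⟨ya, hya⟩ := hSa E (fun s hs => hSE s (by simp [hs]))
  obtain ⟨yb, hyb⟩ := hSb E (fun s hs => hSE s (by simp [hs]))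
  have hya0 : ya ≠ 0 := by
    rintro rfl
    rw [map_zero] at hya
    exact ha0 hya.symm
  have hyb0 : yb ≠ 0 := by
    rintro rfl
    rw [map_zero] at hyb
    exact hb0 hyb.symm
  refine splitRedAt_of_level M q hq hqM A hA E hE (fun w => hMOD.s1 E w hE)
    (fun w => hMOD.s2 E w hE) (fun w => hMOD.s3 E w hE) (fun w => hMOD.s4 E w hE)
    (fun w => hMOD.stau E w hE) (hMOD.good E hE) x yf ya yb hya0 hyb0 ?_ ?_ ?_
  · rw [hyf]
    exact hK
  · have e1 : iota E F₀ (yf * (ya ^ q)⁻¹) =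
        f * (Fermat.Agent.Ribet.H573.cst (M * q) c₁)⁻¹ * (g₁ ^ q)⁻¹ := by
      rw [map_mul, map_inv₀, map_pow, hyf, hya, ha, mul_pow, ← map_pow, hκ₁, mul_inv,
        Fermat.Agent.Ribet.H573.cst, mul_assoc]
    rw [e1]
    exact hu₁
  · have e1 : Fermat.Agent.A2.H528.wF (M * q) (iota E F₀ (yf * (yb ^ q)⁻¹)) =
        Fermat.Agent.A2.H528.wF (M * q) f * (Fermat.Agent.Ribet.H573.cst (M * q) c₂)⁻¹ *
          (g₂ ^ q)⁻¹ := by
      rw [map_mul, map_inv₀, map_pow, hyf, hyb, hb, map_mul, map_inv₀, map_pow, map_mul,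
        Fermat.Agent.A2.H528.wF_wF, AlgEquiv.commutes, mul_pow, ← map_pow, hκ₂, mul_inv,
        Fermat.Agent.Ribet.H573.cst, mul_assoc]
    rw [e1]
    exact hu₂

end Main

/-- **Leaf DICT** for the split part `𝒮 = H884.splitPart p M' A`, from MOD at `p`. -/
theorem dictFor_of_mod (p M' : ℕ) [NeZero M'] [NeZero p] [NeZero (p * M')] (hp : p.Prime)
    (hpM : ¬ p ∣ M') (A : ValuationSubring (AlgebraicClosure ℚ)) (hA : A.LiesOverPrime p)
    (hMOD : ModAt A M' p) :
    DictFor p M' A (Fermat.Agent.Ribet.H884.splitPart p M' A) := by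
  intro x hx _
  obtain ⟨f, hKf, hsplit⟩ := Fermat.Agent.Ribet.H884.splitClosed p M' hp hpM A hA x hx
  obtain ⟨hr1, hr2⟩ := Fermat.Agent.Ribet.H573.splitGen_redPow hp hpM hA hsplit
  exact (splitRedClass_iff p M' A x).2
    (splitRedAt_of_redPow M' p (p * M') (mul_comm p M') (dvd_mul_right p M') hp hpM A hA hMOD
      x f hKf hr1 hr2)

/-- **Leaf DICT**, all `(p, M', A)` at once. -/
theorem dict_of_mod
    (hMOD : ∀ (p M' : ℕ) [NeZero M'] [NeZero p], p.Prime → ¬ p ∣ M' →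
      ∀ A : ValuationSubring (AlgebraicClosure ℚ), A.LiesOverPrime p → ModAt A M' p) :
    ∀ (p M' : ℕ) [NeZero M'] [NeZero p] [NeZero (p * M')], p.Prime → ¬ p ∣ M' →
      ∀ A : ValuationSubring (AlgebraicClosure ℚ), A.LiesOverPrime p →
        DictFor p M' A (Fermat.Agent.Ribet.H884.splitPart p M' A) :=
  fun p M' _ _ _ hp hpM A hA => dictFor_of_mod p M' hp hpM A hA (hMOD p M' hp hpM A hA)

end Fermat.Agent.Ribet.H714

end
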