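import Fermat.Agent.A2.H48.TwoVal

/-!
# RIBET, wall at `p`, leaf S2:DICT — multiplicative weak approximation (helper714)

Mathlib + `A2/H48/TwoVal` only.  `V₁ ≠ V₂` valuation subrings of a field `F` with a common
uniformiser `ϖ` (`H48.IsUnif`).

* `val_sub_one_mul`, `val_sub_one_inv`, `val_sub_one_pow` : `1 + 𝔪_V` is a group;
* `exists_sharp_idem` : for every `n` there is `e` with `e ≡ 1 mod ϖ^n V₁`, `e ≡ 0 mod ϖ^n V₂`;
* `exists_mul_approx` : for `a₁, a₂ ≠ 0` of bounded valuation there is `h ≠ 0` with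
  `h / a₁ ∈ 1 + 𝔪_{V₁}` and `h / a₂ ∈ 1 + 𝔪_{V₂}`.
-/

set_option autoImplicit false

namespace Fermat.Agent.Ribet.H714

open Fermat.Agent.A2.H48

section One

variable {F : Type*} [Field F] {V : ValuationSubring F}

theorem val_eq_one_of_sub_one {u : F} (hu : V.valuation (u - 1) < 1) : V.valuation u = 1 := by
  have h := Valuation.map_one_add_of_lt (v := V.valuation) hu
  rwa [add_sub_cancel] at h

theorem ne_zero_of_sub_one {u : F} (hu : V.valuation (u - 1) < 1) : u ≠ 0 := by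
  intro h
  have h1 := val_eq_one_of_sub_one hu
  rw [h, map_zero] at h1
  exact zero_ne_one h1

theorem val_sub_one_mul {u u' : F} (hu : V.valuation (u - 1) < 1)
    (hu' : V.valuation (u' - 1) < 1) : V.valuation (u * u' - 1) < 1 := by
  have e : u * u' - 1 = u * (u' - 1) + (u - 1) := by ring
  rw [e]
  refine lt_of_le_of_lt (Valuation.map_add _ _ _) (max_lt ?_ hu)
  rw [map_mul, val_eq_one_of_sub_one hu, one_mul]
  exact hu'

theorem val_sub_one_inv {u : F} (hu : V.valuation (u - 1) < 1) :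
    V.valuation (u⁻¹ - 1) < 1 := by
  have hu0 := ne_zero_of_sub_one hu
  have e : u⁻¹ - 1 = -(u - 1) * u⁻¹ := by field_simp; ring
  rw [e, map_mul, Valuation.map_neg, map_inv₀, val_eq_one_of_sub_one hu, inv_one, mul_one]
  exact hu

theorem val_sub_one_pow {u : F} (hu : V.valuation (u - 1) < 1) (n : ℕ) :
    V.valuation (u ^ n - 1) < 1 := by
  induction n with
  | zero => simp
  | succ n ih => rw [pow_succ]; exact val_sub_one_mul ih hu

end One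

section Two

variable {F : Type*} [Field F] {V₁ V₂ : ValuationSubring F} {ϖ : F}

/-- Sharp idempotent-like elements: `e ≡ 1 mod ϖ^n V₁`, `e ≡ 0 mod ϖ^n V₂`. -/
theorem exists_sharp_idem (h₁ : IsUnif V₁ ϖ) (h₂ : IsUnif V₂ ϖ) (hne : V₁ ≠ V₂) (n : ℕ)
    (hn : 0 < n) :
    ∃ e : F, V₁.valuation (e - 1) ≤ V₁.valuation ϖ ^ n ∧ V₂.valuation e ≤ V₂.valuation ϖ ^ n := by
  obtain ⟨c, hc0, hc1, hc2⟩ := exists_separating h₁ h₂ hne
  have hcn1 : V₁.valuation (c ^ n) < 1 := by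
    rw [map_pow]; exact pow_lt_one₀ zero_le hc1 (by omega)
  have hcn2 : V₂.valuation ((c⁻¹) ^ n) < 1 := by
    rw [map_pow]; exact pow_lt_one₀ zero_le hc2 (by omega)
  have hu1 : V₁.valuation (1 + c ^ n) = 1 := Valuation.map_one_add_of_lt _ hcn1
  have hu2 : V₂.valuation (1 + (c⁻¹) ^ n) = 1 := Valuation.map_one_add_of_lt _ hcn2
  have hne1 : 1 + c ^ n ≠ 0 := by
    intro h; rw [h, map_zero] at hu1; exact zero_ne_one hu1
  have hne2 : 1 + (c⁻¹) ^ n ≠ 0 := by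
    intro h; rw [h, map_zero] at hu2; exact zero_ne_one hu2
  set e := (1 + c ^ n)⁻¹ with he
  have he1 : V₁.valuation e = 1 := by rw [he, map_inv₀, hu1, inv_one]
  have hee : e - 1 = -(c ^ n) * e := by
    rw [he]; field_simp; ring
  have hee2 : e = (c⁻¹) ^ n * (1 + (c⁻¹) ^ n)⁻¹ := by
    have hcn0 : c ^ n ≠ 0 := pow_ne_zero _ hc0
    have h3 : 1 + (c ^ n)⁻¹ ≠ 0 := by rwa [inv_pow] at hne2
    rw [he, inv_pow, eq_comm, ← div_eq_mul_inv, div_eq_iff h3, ← div_eq_inv_mul,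
      eq_div_iff hne1]
    field_simp
    ring
  refine ⟨e, ?_, ?_⟩
  · rw [hee, map_mul, Valuation.map_neg, he1, mul_one, map_pow]
    exact pow_le_pow_left₀ zero_le (h₁.val_le_of_lt_one hc1) n
  · rw [hee2, map_mul, map_inv₀, hu2, inv_one, mul_one, map_pow]
    exact pow_le_pow_left₀ zero_le (h₂.val_le_of_lt_one hc2) n

/-- **Multiplicative weak approximation** for two valuation rings with a common uniformiser:
given `a₁, a₂ ≠ 0` with `ϖ ^ k · (a₂ / a₁) ∈ V₁` and `ϖ ^ k · (a₁ / a₂) ∈ V₂`, there is `h ≠ 0`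
with `h / a₁ ∈ 1 + 𝔪_{V₁}` and `h / a₂ ∈ 1 + 𝔪_{V₂}`. -/
theorem exists_mul_approx (h₁ : IsUnif V₁ ϖ) (h₂ : IsUnif V₂ ϖ) (hne : V₁ ≠ V₂)
    {a₁ a₂ : F} (ha₁ : a₁ ≠ 0) (ha₂ : a₂ ≠ 0) (k : ℕ)
    (hk₁ : ϖ ^ k * (a₂ * a₁⁻¹) ∈ V₁) (hk₂ : ϖ ^ k * (a₁ * a₂⁻¹) ∈ V₂) :
    ∃ h : F, h ≠ 0 ∧ V₁.valuation (h * a₁⁻¹ - 1) < 1 ∧ V₂.valuation (h * a₂⁻¹ - 1) < 1 := by
  obtain ⟨e, he1, he2⟩ := exists_sharp_idem h₁ h₂ hne (k + 1) (by omega)
  have hv1 : V₁.valuation ϖ ^ k * V₁.valuation (a₂ * a₁⁻¹) ≤ 1 := by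
    have := (V₁.valuation_le_one_iff _).2 hk₁
    rwa [map_mul, map_pow] at this
  have hv2 : V₂.valuation ϖ ^ k * V₂.valuation (a₁ * a₂⁻¹) ≤ 1 := by
    have := (V₂.valuation_le_one_iff _).2 hk₂
    rwa [map_mul, map_pow] at this
  have hϖ1 : V₁.valuation ϖ ^ (k + 1) < 1 := pow_lt_one₀ zero_le h₁.val_lt_one (by omega)
  have hϖ2 : V₂.valuation ϖ ^ (k + 1) < 1 := pow_lt_one₀ zero_le h₂.val_lt_one (by omega)
  -- `h = a₁ e + a₂ (1 - e)`
  have key1 : V₁.valuation ((a₁ * e + a₂ * (1 - e)) * a₁⁻¹ - 1) < 1 := by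
    have e1 : (a₁ * e + a₂ * (1 - e)) * a₁⁻¹ - 1 = (e - 1) + -((a₂ * a₁⁻¹) * (e - 1)) := by
      field_simp
      ring
    rw [e1]
    refine lt_of_le_of_lt (Valuation.map_add _ _ _) (max_lt (lt_of_le_of_lt he1 hϖ1) ?_)
    rw [Valuation.map_neg, map_mul]
    calc V₁.valuation (a₂ * a₁⁻¹) * V₁.valuation (e - 1)
        ≤ V₁.valuation (a₂ * a₁⁻¹) * V₁.valuation ϖ ^ (k + 1) := mul_le_mul_right he1 _
      _ = (V₁.valuation ϖ ^ k * V₁.valuation (a₂ * a₁⁻¹)) * V₁.valuation ϖ := by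
          rw [pow_succ, mul_comm (V₁.valuation ϖ ^ k) (V₁.valuation (a₂ * a₁⁻¹)), mul_assoc]
      _ ≤ 1 * V₁.valuation ϖ := mul_le_mul_left hv1 _
      _ < 1 := by rw [one_mul]; exact h₁.val_lt_one
  have key2 : V₂.valuation ((a₁ * e + a₂ * (1 - e)) * a₂⁻¹ - 1) < 1 := by
    have e2 : (a₁ * e + a₂ * (1 - e)) * a₂⁻¹ - 1 = (a₁ * a₂⁻¹) * e + -e := by
      field_simp
      ring
    rw [e2]
    refine lt_of_le_of_lt (Valuation.map_add _ _ _) (max_lt ?_ ?_)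
    · rw [map_mul]
      calc V₂.valuation (a₁ * a₂⁻¹) * V₂.valuation e
          ≤ V₂.valuation (a₁ * a₂⁻¹) * V₂.valuation ϖ ^ (k + 1) := mul_le_mul_right he2 _
        _ = (V₂.valuation ϖ ^ k * V₂.valuation (a₁ * a₂⁻¹)) * V₂.valuation ϖ := by
            rw [pow_succ, mul_comm (V₂.valuation ϖ ^ k) (V₂.valuation (a₁ * a₂⁻¹)), mul_assoc]
        _ ≤ 1 * V₂.valuation ϖ := mul_le_mul_left hv2 _
        _ < 1 := by rw [one_mul]; exact h₂.val_lt_one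
    · rw [Valuation.map_neg]
      exact lt_of_le_of_lt he2 hϖ2
  refine ⟨a₁ * e + a₂ * (1 - e), ?_, key1, key2⟩
  intro h0
  rw [h0, zero_mul, zero_sub, Valuation.map_neg, map_one] at key1
  exact lt_irrefl _ key1

end Two

end Fermat.Agent.Ribet.H714
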