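import Fermat.Agent.Ribet.H714.DictCore

/-!
# RIBET, wall at `p`, leaf S2:DICT — assembly at a good level (helper714)

`splitRedAt_of_level` : level `N = M * q`, `E` a good level of `A` (over `q`), MOD at
`(A, E, M, q)`.  If `x` has a Kummer function `ι y_f`, `y_f ∈ F_{N,E}`, with
`ι (y_f / y_a ^ q) ∈ 1 + 𝔪_{V̄∞}` and `w_N (ι (y_f / y_b ^ q)) ∈ 1 + 𝔪_{V̄∞}` for some
`y_a, y_b ∈ F_{N,E}ˣ`, then `x` is a split-reduction class (`SplitRedAt`); the Kummer function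
`y = y_f / g ^ q` produced is `≡ 1` on both components of both standard charts.
-/

set_option autoImplicit false
set_option linter.style.haveILetI false
set_option linter.unusedSectionVars false
set_option linter.unusedVariables false
set_option synthInstance.maxHeartbeats 400000
set_option maxHeartbeats 4000000

noncomputable section

namespace Fermat.Agent.Ribet.H714

open AlgebraicCurve ModularCurve
open Fermat.Agent.A2 Fermat.Agent.A2.Alg
open Fermat.Agent.A2.T1.H669 (iota iota_ne_zero iota_algebraMap iota_injective)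
open Fermat.Agent.Ribet.H103.S2

section Asm

variable {M q : ℕ} [NeZero M] [NeZero q] [NeZero (M * q)]
variable {A : ValuationSubring (AlgebraicClosure ℚ)}
  {E : IntermediateField ℚ (AlgebraicClosure ℚ)} {w : RE A E}
  {V : ValuationSubring ↥(Mod.FE E (M * q))}
  {W : ↥(Mod.FE E (M * q)) ≃ₐ[↥E] ↥(Mod.FE E (M * q))}

/-- **Step 3**: the semistable chart of a coordinate, with a function `≡ 1` on both
components. -/
theorem LevelCtx.exists_chart (h : LevelCtx M q A E w V W)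
    (hS1 : Mod.S1Statement A E M q w) (hS2 : Mod.S2Statement A E M q w)
    (hS3 : Mod.S3Statement A E M q w)
    {VM : ValuationSubring ↥(Mod.FE E M)} (hVM : Mod.IsVinf A E M VM)
    (c : ↥(Mod.FE E (M * q))) (hc : Mod.IsCoord E M q c)
    (hCtx : ChartCtx E w c (Mod.chartAlg A E (M * q) c)) (hcV : c ∈ V)
    (hcV₀ : c ∈ V.comap (W : ↥(Mod.FE E (M * q)) →+* ↥(Mod.FE E (M * q))))
    (yM : ↥(Mod.FE E M)) (hpair : Mod.IsCoordPair E M q yM c)
    (hgr : Mod.GoodRedAt A E M w VM yM)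
    (y : ↥(Mod.FE E (M * q))) (hyV : V.valuation (y - 1) < 1)
    (hyV₀ : (V.comap (W : ↥(Mod.FE E (M * q)) →+* ↥(Mod.FE E (M * q)))).valuation (y - 1) < 1) :
    ∃ cc : SSChart w (Mod.chartAlg A E (M * q) c),
      ConstAt (Mod.chartAlg A E (M * q) c) cc.p₁ y ∧
        ConstAt (Mod.chartAlg A E (M * q) c) cc.p₂ y := by
  have hS := h.setting
  have hV := h.isVinf
  have hW := h.isFricke
  obtain ⟨p₁, p₂, hc₁, hc₂, hp₁, hp₂, h₁₂, h₂₁, hinf⟩ := hS1 hS V W hV hW c hc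
  obtain ⟨hn₁, hn₂⟩ := hS2 hS VM V W hVM hV hW yM c hpair hgr p₁ p₂ hc₁ hc₂
  have hrad := hS3 hS VM V W hVM hV hW yM c hpair hgr p₁ p₂ hc₁ hc₂
  obtain ⟨hy₁, hy₂⟩ := h.constAt c hCtx hcV hcV₀ p₁ p₂ hc₁ hc₂ h₁₂ h₂₁ hinf y hyV hyV₀
  exact ⟨{ p₁ := p₁
           p₂ := p₂
           prime₁ := hp₁
           prime₂ := hp₂
           ne := fun h => h₁₂ (h ▸ le_refl p₁)
           not_le₁₂ := h₁₂
           not_le₂₁ := h₂₁
           inf_eq := hinf
           normal₁ := hn₁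
           normal₂ := hn₂
           transversal := hrad }, hy₁, hy₂⟩

/-- the coordinate `x = j · j_q` and its inverse lie in `V∞` and in `V₀` -/
theorem LevelCtx.coord_mem (h : LevelCtx M q A E w V W) :
    (Mod.xE E M q ∈ V ∧ (Mod.xE E M q)⁻¹ ∈ V) ∧
      (Mod.xE E M q ∈ V.comap (W : ↥(Mod.FE E (M * q)) →+* ↥(Mod.FE E (M * q))) ∧
        (Mod.xE E M q)⁻¹ ∈ V.comap (W : ↥(Mod.FE E (M * q)) →+* ↥(Mod.FE E (M * q)))) := by
  obtain ⟨-, -, hjV⟩ :=
    Mod.H553.vinfBasic A E w (M * q) (NeZero.ne _) h.dvr h.setting.unif V h.isVinf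
  have hW := h.isFricke
  have h1' := hjV 1 (one_dvd _)
  have hq' := hjV q (dvd_mul_left q M)
  have e1 : W (Mod.jE E (M * q) 1 (one_dvd _)) = Mod.jE E (M * q) (M * q) dvd_rfl :=
    hW.1 1 (M * q) (one_dvd _) dvd_rfl (one_mul _)
  have e2 : W (Mod.jE E (M * q) q (dvd_mul_left q M)) =
      Mod.jE E (M * q) M (dvd_mul_right M q) :=
    hW.1 q M (dvd_mul_left q M) (dvd_mul_right M q) (mul_comm q M)
  have hN' := hjV (M * q) dvd_rfl
  have hM' := hjV M (dvd_mul_right M q)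
  refine ⟨⟨V.mul_mem _ _ h1'.1 hq'.1, ?_⟩, ?_, ?_⟩
  · rw [Mod.xE, mul_inv]
    exact V.mul_mem _ _ h1'.2 hq'.2
  · show W (Mod.xE E M q) ∈ V
    rw [Mod.xE, map_mul, e1, e2]
    exact V.mul_mem _ _ hN'.1 hM'.1
  · show W (Mod.xE E M q)⁻¹ ∈ V
    rw [Mod.xE, map_inv₀, map_mul, e1, e2, mul_inv]
    exact V.mul_mem _ _ hN'.2 hM'.2

end Asm

section Final

variable (M q : ℕ) [NeZero M] [NeZero q] [NeZero (M * q)]

/-- **DICT, core at a good level.** -/
theorem splitRedAt_of_level (hq : q.Prime) (hqM : ¬ q ∣ M)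
    (A : ValuationSubring (AlgebraicClosure ℚ)) (hA : A.LiesOverPrime q)
    (E : IntermediateField ℚ (AlgebraicClosure ℚ)) (hE : GoodField A E)
    (hS1 : ∀ w, Mod.S1Statement A E M q w) (hS2 : ∀ w, Mod.S2Statement A E M q w)
    (hS3 : ∀ w, Mod.S3Statement A E M q w) (hS4 : ∀ w, Mod.S4Statement A E M q w)
    (hSτ : ∀ w, Mod.StauStatement A E M q w) (hgood : Mod.GoodRedHyp A E M)
    (x : JZero (M * q)) (yf ya yb : ↥(Mod.FE E (M * q))) (hya : ya ≠ 0) (hyb : yb ≠ 0)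
    (hK : IsKummerFn (M * q) q x (iota E (modularFunctionFieldFull (M * q)) yf))
    (h1 : (Fermat.Agent.A2.H553.VinfModular A hq.ne_zero hA (M * q)).valuation
      (iota E (modularFunctionFieldFull (M * q)) (yf * (ya ^ q)⁻¹) - 1) < 1)
    (h2 : (Fermat.Agent.A2.H553.VinfModular A hq.ne_zero hA (M * q)).valuation
      (Fermat.Agent.A2.H528.wF (M * q)
        (iota E (modularFunctionFieldFull (M * q)) (yf * (yb ^ q)⁻¹)) - 1) < 1) :
    SplitRedAt (M * q) q (dvd_mul_left q M) A x := by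
  haveI hdvr : IsDiscreteValuationRing ↥(RE A E) := hE.dvr
  haveI : HenselianLocalRing ↥(RE A E) := hE.henselian
  haveI : IsAlgClosed (IsLocalRing.ResidueField ↥(RE A E)) := hE.algClosed
  obtain ⟨w, hw⟩ := IsDiscreteValuationRing.exists_irreducible ↥(RE A E)
  have hSw : ∀ w' : RE A E, Irreducible w' → Mod.Setting A E M q w' := fun w' hw' =>
    { q_prime := hq
      q_not_dvd := hqM
      M_ne_zero := NeZero.ne M
      lies_over := hA
      dvr := hdvr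
      unif := hw' }
  have hS := hSw w hw
  obtain ⟨V, hV⟩ := Mod.H553.vinfExists A E (M * q) (NeZero.ne _) hdvr
  obtain ⟨VM, hVM⟩ := Mod.H553.vinfExists A E M (NeZero.ne M) hdvr
  have hW : Mod.IsFricke E (M * q) (Mod.H553.wE E (M * q)) := Mod.H553.isFricke_wE E (M * q)
  have hL : LevelCtx M q A E w V (Mod.H553.wE E (M * q)) :=
    { dvr := hdvr
      setting := hS
      isVinf := hV
      isFricke := hW
      iotaW := fun z => Mod.H553.iota_wE E (M * q) z }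
  obtain ⟨g, hg0, hyV, hyV₀⟩ := hL.exists_split hq hA yf ya yb hya hyb h1 h2
  -- the Kummer function
  have hyf0 : yf ≠ 0 := by
    rintro rfl
    exact hK.1 (map_zero _)
  have hy0 : yf * (g ^ q)⁻¹ ≠ 0 := mul_ne_zero hyf0 (inv_ne_zero (pow_ne_zero _ hg0))
  have hKy : IsKummerFn (M * q) q x
      (iota E (modularFunctionFieldFull (M * q)) (yf * (g ^ q)⁻¹)) := by
    have e1 : iota E (modularFunctionFieldFull (M * q)) (yf * (g ^ q)⁻¹) =
        iota E (modularFunctionFieldFull (M * q)) yf *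
          ((iota E (modularFunctionFieldFull (M * q)) g) ^ q)⁻¹ := by
      rw [map_mul, map_inv₀, map_pow]
    rw [e1]
    exact isKummerFn_mul_inv_pow q hK (iota_ne_zero E _ hg0)
  have hdiv : DivisibleDiv E q (yf * (g ^ q)⁻¹) := by
    obtain ⟨-, Dv, -, hord⟩ := hKy
    exact Fermat.Agent.A2.T1.H669.divisibleDiv_of_ord E (modularFunctionFieldFull (M * q)) q _
      hy0 (fun v => ⟨_, hord v⟩)
  -- the model
  obtain ⟨hx, hfr, hconst⟩ := Mod.H31.deg (E := E) M q hq hqM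
  have hpos : 0 < Module.finrank
      (IntermediateField.adjoin E ({Mod.xE E M q} : Set (Mod.FE E (M * q))))
      (Mod.FE E (M * q)) := by
    rw [hfr]
    have := Mod.dedekindPsi_pos_of_ne_zero M (NeZero.ne M)
    positivity
  have hfin : FiniteDimensional
      (IntermediateField.adjoin E ({Mod.xE E M q} : Set (Mod.FE E (M * q))))
      (Mod.FE E (M * q)) := Module.finite_of_finrank_pos hpos
  have hg := hgood w VM hw hVM
  have hsep := hS4 w hS VM hVM hg.1 hg.2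
  have hCf : ChartCtx E w (Mod.xE E M q) (Mod.chartAlg A E (M * q) (Mod.xE E M q)) :=
    ⟨hw, hx, hfin, hconst, fun _ => Iff.rfl⟩
  have hCi : ChartCtx E w (Mod.xE E M q)⁻¹ (Mod.chartAlg A E (M * q) (Mod.xE E M q)⁻¹) :=
    H34.chartCtx_inv w hw (Mod.xE E M q) hx hfin hconst _ (fun _ => Iff.rfl)
  obtain ⟨⟨hxV, hxiV⟩, hxV₀, hxiV₀⟩ := hL.coord_mem
  obtain ⟨cf, hcf₁, hcf₂⟩ := hL.exists_chart (hS1 w) (hS2 w) (hS3 w) hVM (Mod.xE E M q)
    (Or.inl rfl) hCf hxV hxV₀ (Mod.jE E M 1 (one_dvd _)) (Or.inl ⟨rfl, rfl⟩) hg.1 _ hyV hyV₀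
  obtain ⟨ci, hci₁, hci₂⟩ := hL.exists_chart (hS1 w) (hS2 w) (hS3 w) hVM (Mod.xE E M q)⁻¹
    (Or.inr rfl) hCi hxiV hxiV₀ (Mod.jE E M 1 (one_dvd _))⁻¹ (Or.inr ⟨rfl, rfl⟩) hg.2 _
    hyV hyV₀
  have hred : ∀ (B : Subalgebra ↥(RE A E) ↥(Mod.FE E (M * q))) (𝔭 : Ideal B),
      ConstAt B 𝔭 (yf * (g ^ q)⁻¹) → RedPowAt B 𝔭 q (yf * (g ^ q)⁻¹) := by
    intro B 𝔭 hc
    refine ⟨1, one_ne_zero, ?_⟩
    rw [one_pow, mul_one]
    exact hc
  refine ⟨E, hE,
    { x := Mod.xE E M q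
      hx := hx
      hfin := hfin
      hconst := hconst
      Bf := Mod.chartAlg A E (M * q) (Mod.xE E M q)
      Bi := Mod.chartAlg A E (M * q) (Mod.xE E M q)⁻¹
      hBf := fun _ => Iff.rfl
      hBi := fun _ => Iff.rfl
      cf := fun w' hw' => Mod.nonempty_ssChart A E M q w' (hSw w' hw') (hS1 w') (hS2 w') (hS3 w')
        VM V _ hVM hV hW _ _ (Or.inl ⟨rfl, rfl⟩) (hgood w' VM hw' hVM).1
      ci := fun w' hw' => Mod.nonempty_ssChart A E M q w' (hSw w' hw') (hS1 w') (hS2 w') (hS3 w')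
        VM V _ hVM hV hW _ _ (Or.inr ⟨rfl, rfl⟩) (hgood w' VM hw' hVM).2
      sf := hsep.1
      si := hsep.2
      hτx := fun hE' τ hτ => ((hSτ w) hS τ (hE'.res τ hτ) hτ (fun _ => rfl)).1
      hτf := fun hE' τ hτ w' hw' b hb =>
        ((hSτ w') (hSw w' hw') τ (hE'.res τ hτ) hτ (fun _ => rfl)).2 _ (Or.inl rfl) b hb
      hτi := fun hE' τ hτ w' hw' b hb =>
        ((hSτ w') (hSw w' hw') τ (hE'.res τ hτ) hτ (fun _ => rfl)).2 _ (Or.inr rfl) b hb },
    w, yf * (g ^ q)⁻¹, cf, ci, rfl, hw, hKy, hred _ _ hcf₁, hred _ _ hcf₂, hred _ _ hci₁,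
    hred _ _ hci₂, ?_, ?_⟩
  · intro n hn hwn
    exact H609.pureAt_of_isSplit q hq.pos w (Mod.xE E M q) _ hCf cf _ hdiv ⟨hcf₁, hcf₂⟩ n
      hn.isPrime hwn
  · intro n hn hwn
    exact H609.pureAt_of_isSplit q hq.pos w (Mod.xE E M q)⁻¹ _ hCi ci _ hdiv ⟨hci₁, hci₂⟩ n
      hn.isPrime hwn

end Final

end Fermat.Agent.Ribet.H714

end
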