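import Fermat.Agent.A2.Mod.H553.Vinf
import Fermat.Agent.A2.H553.Modular
import Fermat.Agent.A2.T1.H669.Embed

/-!
# RIBET, wall at `p`, leaf S2:DICT — the Gauss valuation at level `E` and at level `ℚ̄`
(helper714)

`P` a valuation subring of `ℚ̄` over `ℓ`, `E ⊆ ℚ̄` with `R_E = P ∩ E` a discrete valuation ring,
`V` the Gauss valuation ring of `F_{N,E}` (`A2.Mod.IsVinf`), `V̄ = H553.VinfModular P _ _ N` the
Gauss valuation ring of `F̄_N`, `ι = T1.H669.iota : F_{N,E} → F̄_N`.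

* `iota_mem_Vinf_of_mem`  : `z ∈ V ⟹ ι z ∈ V̄`;
* `mem_of_iota_mem_Vinf`  : `ι z ∈ V̄ ⟹ z ∈ V`;
* `mem_iff_iota_mem`      : `V = ι⁻¹ V̄`;
* `val_lt_one_iff_iota`   : `v_V z < 1 ↔ v_V̄ (ι z) < 1`.
-/

set_option autoImplicit false
set_option synthInstance.maxHeartbeats 400000
set_option maxHeartbeats 1600000
set_option linter.unusedSectionVars false
set_option linter.style.haveILetI false

noncomputable section

namespace Fermat.Agent.Ribet.H714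

open ModularCurve HahnSeries
open Fermat.Agent.A2.Mod
open Fermat.Agent.A2.T1.H669 (iota iota_ne_zero iota_algebraMap iota_injective)
open Fermat.Agent.S28.H86

variable (P : ValuationSubring Qb) (E : IntermediateField ℚ Qb)

/-- The inclusion `R_E → P`. -/
def toP : ↥(RE P E) →+* ↥P.toSubring where
  toFun r := ⟨((r : ↥E) : Qb), r.2⟩
  map_one' := rfl
  map_mul' _ _ := rfl
  map_zero' := rfl
  map_add' _ _ := rfl

theorem coeffMap_incl (U : LaurentSeries ↥(RE P E)) :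
    coeffMap (algebraMap ↥E Qb) (Fermat.Agent.A2.H708.incl (RE P E) U) =
      inclL P.toSubring (coeffMap (toP P E) U) := by
  ext n
  rfl

variable {P E}

theorem val_eq_one_toP {e : ↥E} (he : (RE P E).valuation e = 1) :
    P.valuation ((e : ↥E) : Qb) = 1 := by
  have he0 : e ≠ 0 := by
    rintro rfl
    rw [map_zero] at he
    exact zero_ne_one he
  have he0' : ((e : ↥E) : Qb) ≠ 0 := fun h => he0 (Subtype.ext h)
  obtain ⟨h1, h2⟩ := (Fermat.Agent.A2.H553.valuation_eq_one_iff_mem (RE P E) he0).1 he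
  refine (Fermat.Agent.A2.H553.valuation_eq_one_iff_mem P he0').2 ⟨h1, ?_⟩
  have h3 : (((e⁻¹ : ↥E)) : Qb) ∈ P := h2
  simpa using h3

theorem redL_toP_ne_zero {U : LaurentSeries ↥(RE P E)} (hU : Fermat.Agent.A2.H708.red (RE P E) U ≠ 0) :
    redL (Fermat.Agent.A2.H553.resA P) (coeffMap (toP P E) U) ≠ 0 := by
  obtain ⟨n, hn⟩ := (Fermat.Agent.A2.H708.red_ne_zero_iff (RE P E) U).1 hU
  exact (Fermat.Agent.A2.H553.redL_ne_zero_iff _).2 ⟨n, val_eq_one_toP hn⟩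

variable {N : ℕ}

/-- `z ∈ V ⟹ ι z ∈ V̄`. -/
theorem iota_mem_Vinf_of_mem {V : ValuationSubring ↥(FE E N)} (hV : IsVinf P E N V)
    {ℓ : ℕ} (hℓ : ℓ ≠ 0) (hP : P.LiesOverPrime ℓ) {z : ↥(FE E N)} (hz : z ∈ V) :
    iota E (modularFunctionFieldFull N) z ∈ Fermat.Agent.A2.H553.VinfModular P hℓ hP N := by
  obtain ⟨U₁, U₂, h₂, -, he⟩ := (hV z).1 hz
  refine ⟨coeffMap (toP P E) U₁, coeffMap (toP P E) U₂, redL_toP_ne_zero h₂, ?_⟩
  show coeffMap (algebraMap ↥E Qb) (z : LaurentSeries ↥E) *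
      inclL P.toSubring (coeffMap (toP P E) U₂) = inclL P.toSubring (coeffMap (toP P E) U₁)
  rw [← coeffMap_incl, ← coeffMap_incl, ← map_mul, he]

/-- `ι z ∈ V̄ ⟹ z ∈ V`. -/
theorem mem_of_iota_mem_Vinf [NeZero N] (hdvr : IsDiscreteValuationRing ↥(RE P E))
    {V : ValuationSubring ↥(FE E N)} (hV : IsVinf P E N V)
    {ℓ : ℕ} (hℓ : ℓ ≠ 0) (hP : P.LiesOverPrime ℓ) {z : ↥(FE E N)}
    (hz : iota E (modularFunctionFieldFull N) z ∈
      Fermat.Agent.A2.H553.VinfModular P hℓ hP N) : z ∈ V := by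
  haveI := hdvr
  by_contra hzV
  obtain ⟨w, hw⟩ := IsDiscreteValuationRing.exists_irreducible ↥(RE P E)
  obtain ⟨hU, -, -⟩ := H553.vinfBasic P E w N (NeZero.ne N) hdvr hw V hV
  have hzinv : z⁻¹ ∈ V := (V.mem_or_inv_mem z).resolve_left hzV
  have hzinv' : (z⁻¹)⁻¹ ∉ V := by rwa [inv_inv]
  have h1 : z⁻¹ * (cE P E N w)⁻¹ ∈ V := hU.gen _ hzinv hzinv'
  have h2 := iota_mem_Vinf_of_mem hV hℓ hP h1
  have h3 := (Fermat.Agent.A2.H553.VinfModular P hℓ hP N).mul_mem _ _ hz h2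
  have hz0 : z ≠ 0 := by
    rintro rfl
    exact hzV (zero_mem _)
  have hι0 : iota E (modularFunctionFieldFull N) z ≠ 0 := iota_ne_zero E _ hz0
  have h4 : iota E (modularFunctionFieldFull N) z *
      iota E (modularFunctionFieldFull N) (z⁻¹ * (cE P E N w)⁻¹) =
      algebraMap Qb ↥(modularFunctionFieldBar N) (((w : ↥E) : Qb)⁻¹) := by
    rw [map_mul, map_inv₀, map_inv₀, ← mul_assoc, mul_inv_cancel₀ hι0, one_mul, cE,
      iota_algebraMap, map_inv₀]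
    rfl
  rw [h4] at h3
  have h5 : (((w : ↥E) : Qb)⁻¹) ∈ P :=
    (Fermat.Agent.A2.H553.algebraMap_mem_Vinf_iff
      (Fermat.Agent.A2.H553.gaussInput_modular P hℓ hP N)).1 h3
  -- but `w` is not a unit of `R_E`
  have h6 : ((w : ↥E))⁻¹ ∈ RE P E := by
    show (((w : ↥E)⁻¹ : ↥E) : Qb) ∈ P
    simpa using h5
  have hw0 : (w : ↥E) ≠ 0 := fun h0 => hw.ne_zero (Subtype.ext h0)
  apply hw.not_isUnit
  refine ⟨⟨w, ⟨_, h6⟩, ?_, ?_⟩, rfl⟩
  · exact Subtype.ext (mul_inv_cancel₀ hw0)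
  · exact Subtype.ext (inv_mul_cancel₀ hw0)

/-- `V = ι⁻¹ V̄`. -/
theorem mem_iff_iota_mem [NeZero N] (hdvr : IsDiscreteValuationRing ↥(RE P E))
    {V : ValuationSubring ↥(FE E N)} (hV : IsVinf P E N V)
    {ℓ : ℕ} (hℓ : ℓ ≠ 0) (hP : P.LiesOverPrime ℓ) (z : ↥(FE E N)) :
    z ∈ V ↔ iota E (modularFunctionFieldFull N) z ∈
      Fermat.Agent.A2.H553.VinfModular P hℓ hP N :=
  ⟨iota_mem_Vinf_of_mem hV hℓ hP, mem_of_iota_mem_Vinf hdvr hV hℓ hP⟩

/-- `v_V z < 1 ↔ v_V̄ (ι z) < 1`. -/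
theorem val_lt_one_iff_iota [NeZero N] (hdvr : IsDiscreteValuationRing ↥(RE P E))
    {V : ValuationSubring ↥(FE E N)} (hV : IsVinf P E N V)
    {ℓ : ℕ} (hℓ : ℓ ≠ 0) (hP : P.LiesOverPrime ℓ) (z : ↥(FE E N)) :
    V.valuation z < 1 ↔
      (Fermat.Agent.A2.H553.VinfModular P hℓ hP N).valuation
        (iota E (modularFunctionFieldFull N) z) < 1 := by
  rw [Fermat.Agent.A2.H553.valuation_lt_one_iff_mem, Fermat.Agent.A2.H553.valuation_lt_one_iff_mem,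
    mem_iff_iota_mem hdvr hV hℓ hP z, mem_iff_iota_mem hdvr hV hℓ hP z⁻¹, map_inv₀,
    map_eq_zero_iff _ (iota_injective E (modularFunctionFieldFull N))]

end Fermat.Agent.Ribet.H714

end
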