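import Fermat.Agent.A2.H48.TwoVal
import Fermat.Agent.A2.Alg.Spec

/-!
# RIBET, wall at `p`, leaf S2:DICT — from a valuation to the chart (helper714)

Mathlib + `A2/H48/TwoVal` + `A2/Alg/Spec` only.

`B ⊆ F` a subalgebra over `R`, `V ⊇ B` a valuation subring of `F` with uniformiser `w`,
`p = B ∩ w V` the component of the special fibre cut out by `V`, `p'` a second ideal with
`p ⊓ p' = (w)`, `p' ⊄ p`.

* `exists_frac_not_mem` : every `z ∈ V` which is a fraction of elements of `B` with a denominator
  of bounded valuation is a fraction `a / b` with `b ∈ B ∖ p` (`V = B_p`, elementwise);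
* `constAt_of_val_sub_one` : `z ∈ 1 + 𝔪_V ⟹ ConstAt B p z` (with the constant `1`).
-/

set_option autoImplicit false

namespace Fermat.Agent.Ribet.H714

open Fermat.Agent.A2 Fermat.Agent.A2.Alg Fermat.Agent.A2.H48

section Loc

variable {R F : Type*} [CommRing R] [Field F] [Algebra R F]

/-- The data of a component `p = B ∩ w V` of the special fibre of the chart `B` together with a
complementary ideal `p'`. -/
structure CutCtx (B : Subalgebra R F) (V : ValuationSubring F) (w : R) (p p' : Ideal B) :
    Prop where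
  le : ∀ b : B, (b : F) ∈ V
  unif : IsUnif V (algebraMap R F w)
  cut : ∀ b : B, b ∈ p ↔ (b : F) * (algebraMap R F w)⁻¹ ∈ V
  inf_eq : p ⊓ p' = Ideal.span {algebraMap R B w}
  not_le : ¬ p' ≤ p

variable {B : Subalgebra R F} {V : ValuationSubring F} {w : R} {p p' : Ideal B}

theorem CutCtx.mem_iff_val (h : CutCtx B V w p p') (b : B) :
    b ∈ p ↔ V.valuation (b : F) < 1 := by
  rw [h.cut b, h.unif.mul_inv_mem_iff]

theorem CutCtx.inv_mem_of_not_mem (h : CutCtx B V w p p') {b : B} (hb : b ∉ p) :
    ((b : F))⁻¹ ∈ V := by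
  by_contra hcon
  exact hb ((h.cut b).2 (h.unif.gen _ (h.le b) hcon))

theorem CutCtx.coe_algebraMap (B : Subalgebra R F) (w : R) :
    ((algebraMap R B w : B) : F) = algebraMap R F w := rfl

/-- One step: a fraction with denominator in `p` can be rewritten with a denominator of smaller
valuation. -/
theorem CutCtx.exists_frac_not_mem (h : CutCtx B V w p p') (z : F) (hz : z ∈ V) :
    ∀ (k : ℕ) (a b : B), b ≠ 0 → (algebraMap R F w) ^ k * ((b : F))⁻¹ ∈ V →
      z * (b : F) = (a : F) → ∃ a' b' : B, b' ∉ p ∧ z * (b' : F) = (a' : F) := by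
  have hw0 : algebraMap R F w ≠ 0 := h.unif.ne_zero
  obtain ⟨e, he', he⟩ := SetLike.not_le_iff_exists.1 h.not_le
  have heinv : ((e : F))⁻¹ ∈ V := h.inv_mem_of_not_mem he
  have he0 : (e : F) ≠ 0 := by
    intro h0
    apply he
    have : e = 0 := Subtype.ext h0
    rw [this]
    exact p.zero_mem
  intro k
  induction k with
  | zero =>
    intro a b hb0 hk hzb
    refine ⟨a, b, fun hbp => ?_, hzb⟩
    rw [pow_zero, one_mul] at hk
    apply h.unif.inv_not_mem
    have hb0' : (b : F) ≠ 0 := fun h0 => hb0 (Subtype.ext h0)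
    have e1 : (algebraMap R F w)⁻¹ = (b : F) * (algebraMap R F w)⁻¹ * ((b : F))⁻¹ := by
      field_simp
    rw [e1]
    exact V.mul_mem _ _ ((h.cut b).1 hbp) hk
  | succ k ih =>
    intro a b hb0 hk hzb
    by_cases hbp : b ∈ p
    · have hb0' : (b : F) ≠ 0 := fun h0 => hb0 (Subtype.ext h0)
      have hap : a ∈ p := by
        rw [h.cut a, ← hzb, mul_assoc]
        exact V.mul_mem _ _ hz ((h.cut b).1 hbp)
      have hbe : b * e ∈ p ⊓ p' := ⟨p.mul_mem_right _ hbp, p'.mul_mem_left _ he'⟩
      have hae : a * e ∈ p ⊓ p' := ⟨p.mul_mem_right _ hap, p'.mul_mem_left _ he'⟩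
      rw [h.inf_eq, Ideal.mem_span_singleton'] at hbe hae
      obtain ⟨b₁, hb₁⟩ := hbe
      obtain ⟨a₁, ha₁⟩ := hae
      have hb₁F : (b₁ : F) * algebraMap R F w = (b : F) * (e : F) := by
        have := congrArg (fun t : B => (t : F)) hb₁
        simpa using this
      have ha₁F : (a₁ : F) * algebraMap R F w = (a : F) * (e : F) := by
        have := congrArg (fun t : B => (t : F)) ha₁
        simpa using this
      have hb₁eq : (b₁ : F) = (b : F) * (e : F) * (algebraMap R F w)⁻¹ := by
        rw [← hb₁F]; field_simp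
      have ha₁eq : (a₁ : F) = (a : F) * (e : F) * (algebraMap R F w)⁻¹ := by
        rw [← ha₁F]; field_simp
      have hb₁0 : b₁ ≠ 0 := by
        intro h0
        have : (b₁ : F) = 0 := by rw [h0]; rfl
        rw [hb₁eq] at this
        exact (mul_ne_zero (mul_ne_zero hb0' he0) (inv_ne_zero hw0)) this
      refine ih a₁ b₁ hb₁0 ?_ ?_
      · have e1 : (algebraMap R F w) ^ k * ((b₁ : F))⁻¹ =
            (algebraMap R F w) ^ (k + 1) * ((b : F))⁻¹ * ((e : F))⁻¹ := by
          rw [hb₁eq, pow_succ]
          field_simp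
        rw [e1]
        exact V.mul_mem _ _ hk heinv
      · rw [hb₁eq, ha₁eq, ← hzb]
        ring
    · exact ⟨a, b, hbp, hzb⟩

/-- **From the valuation to the chart**: an element `z ≡ 1` modulo the maximal ideal of `V`
which is a fraction of elements of `B` with a denominator of bounded valuation has constant
residue `1` on the component `p = B ∩ w V`. -/
theorem CutCtx.constAt_of_val_sub_one (h : CutCtx B V w p p') (z : F)
    (hz : V.valuation (z - 1) < 1)
    (hfrac : ∃ (k : ℕ) (a b : B), b ≠ 0 ∧ (algebraMap R F w) ^ k * ((b : F))⁻¹ ∈ V ∧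
      z * (b : F) = (a : F)) : ConstAt B p z := by
  have hzV : z ∈ V := by
    rw [← V.valuation_le_one_iff]
    have h1 : V.valuation z = 1 := by
      have := Valuation.map_one_add_of_lt (v := V.valuation) hz
      rwa [add_sub_cancel] at this
    exact h1.le
  obtain ⟨k, a, b, hb0, hk, hzb⟩ := hfrac
  obtain ⟨a', b', hb', hzb'⟩ := h.exists_frac_not_mem z hzV k a b hb0 hk hzb
  refine ⟨1, isUnit_one, a', b', hb', ?_, hzb'⟩
  rw [map_one, one_mul, h.mem_iff_val]
  have e1 : ((a' - b' : B) : F) = (z - 1) * (b' : F) := by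
    rw [sub_mul, one_mul, hzb']
    rfl
  rw [e1, map_mul]
  calc V.valuation (z - 1) * V.valuation (b' : F) ≤ V.valuation (z - 1) * 1 :=
        mul_le_mul_right ((V.valuation_le_one_iff _).2 (h.le b')) _
    _ < 1 := by rw [mul_one]; exact hz

end Loc

end Fermat.Agent.Ribet.H714
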