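import Fermat.Agent.Ribet.H103.S2Spec
import Fermat.Agent.Ribet.H714.DictApprox
import Fermat.Agent.Ribet.H714.DictLoc
import Fermat.Agent.Ribet.H714.DictLevel
import Fermat.Agent.A2.Mod.Asm
import Fermat.Agent.A2.Mod.H553.Fricke
import Fermat.Agent.A2.Mod.H553.VzeroNe
import Fermat.Agent.A2.Mod.H372.S3Base
import Fermat.Agent.A2.Mod.H31.Deg
import Fermat.Agent.A2.Alg.H609.PuritySmooth

/-!
# RIBET, wall at `p`, leaf S2:DICT — the core at a good level (helper714)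

Level `N = M * q`, `q` prime, `q ∤ M`, `A` over `q`, `E` a good level, MOD at `(A, E, M, q)`
(the sub-assemblies `S1`–`S4`, `Sτ` of `A2/Mod/Asm.lean` and `GoodRedHyp`).

* `SplitRedAt N p hpN A x` : `H103.S2.SplitRedClass` at an arbitrary level `N` (`p ∣ N`);
* `splitRedAt_of_level`   : if `x` has a Kummer function `ι y_f`, `y_f ∈ F_{N,E}`, such that
  `y_f / y_a ^ q ∈ 1 + 𝔪_{V∞}` and `y_f / y_b ^ q ∈ 1 + 𝔪_{V₀}` for some `y_a, y_b ∈ F_{N,E}ˣ`,
  then `x` is a split-reduction class.  In fact the Kummer function `y = y_f / h ^ q` produced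
  here is `≡ 1` on BOTH components of BOTH charts (`IsSplit` with constant `1`).
-/

set_option autoImplicit false
set_option linter.style.haveILetI false
set_option linter.unusedSectionVars false
set_option synthInstance.maxHeartbeats 400000
set_option maxHeartbeats 4000000

noncomputable section

namespace Fermat.Agent.Ribet.H714

open AlgebraicCurve ModularCurve
open Fermat.Agent.A2 Fermat.Agent.A2.Alg
open Fermat.Agent.A2.T1.H669 (iota iota_ne_zero iota_algebraMap iota_injective)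
open Fermat.Agent.Ribet.H103.S2

/-- `H103.S2.SplitRedClass` at an arbitrary level `N`, `p ∣ N`. -/
def SplitRedAt (N p : ℕ) [NeZero p] (hpN : p ∣ N) (A : ValuationSubring (AlgebraicClosure ℚ))
    (x : JZero N) : Prop :=
  ∃ (E : IntermediateField ℚ (AlgebraicClosure ℚ)) (_ : GoodField A E)
    (D : ModSSData A E N)
    (w : RE A E) (y : FE E N) (cf : SSChart w D.Bf) (ci : SSChart w D.Bi),
    D.x = stdCoord E N p hpN ∧ Irreducible w ∧
    IsKummerFn N p x (iota E (modularFunctionFieldFull N) y) ∧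
    RedPowAt D.Bf cf.p₁ p y ∧ RedPowAt D.Bf cf.p₂ p y ∧
    RedPowAt D.Bi ci.p₁ p y ∧ RedPowAt D.Bi ci.p₂ p y ∧
    (∀ n : Ideal D.Bf, n.IsMaximal → algebraMap (RE A E) D.Bf w ∈ n → PureAt D.Bf cf p y n) ∧
    (∀ n : Ideal D.Bi, n.IsMaximal → algebraMap (RE A E) D.Bi w ∈ n → PureAt D.Bi ci p y n)

theorem splitRedClass_iff (p M' : ℕ) [NeZero p] (A : ValuationSubring (AlgebraicClosure ℚ))
    (x : JZero (p * M')) :
    SplitRedClass p M' A x ↔ SplitRedAt (p * M') p (dvd_mul_right p M') A x := Iff.rfl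

/-! ## Valuation rings at level `E` -/

section Val

variable {P : ValuationSubring Mod.Qb} {E : IntermediateField ℚ Mod.Qb} {N : ℕ}

/-- the valuation of the transform of a valuation ring by an endomorphism -/
theorem val_comap_lt_one {F : Type*} [Field F] (V : ValuationSubring F) (W : F →+* F) (z : F) :
    (V.comap W).valuation z < 1 ↔ V.valuation (W z) < 1 := by
  rw [Fermat.Agent.A2.H553.valuation_lt_one_iff_mem, Fermat.Agent.A2.H553.valuation_lt_one_iff_mem]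
  simp only [ValuationSubring.mem_comap, map_inv₀, map_eq_zero]

/-- the transform of a valuation ring with uniformiser `ϖ` by an endomorphism fixing `ϖ` -/
theorem isUnif_comap {F : Type*} [Field F] {V : ValuationSubring F} {ϖ : F}
    (h : Fermat.Agent.A2.H48.IsUnif V ϖ) (W : F →+* F) (hW : W ϖ = ϖ) :
    Fermat.Agent.A2.H48.IsUnif (V.comap W) ϖ where
  mem := by
    show W ϖ ∈ V
    rw [hW]; exact h.mem
  inv_not_mem := by
    show ¬ W ϖ⁻¹ ∈ V
    rw [map_inv₀, hW]; exact h.inv_not_mem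
  gen := by
    intro f hf hf'
    show W (f * ϖ⁻¹) ∈ V
    rw [map_mul, map_inv₀, hW]
    refine h.gen _ hf ?_
    intro h1
    apply hf'
    show W f⁻¹ ∈ V
    rw [map_inv₀]; exact h1

/-- discreteness: every nonzero function becomes integral after multiplication by a power of
the uniformiser. -/
theorem exists_pow_mul_mem [NeZero N] (hdvr : IsDiscreteValuationRing ↥(Mod.RE P E))
    {w : Mod.RE P E} (hw : Irreducible w)
    {V : ValuationSubring ↥(Mod.FE E N)} (hV : Mod.IsVinf P E N V) {z : ↥(Mod.FE E N)}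
    (hz : z ≠ 0) : ∃ k : ℕ, (Mod.cE P E N w) ^ k * z ∈ V := by
  haveI := hdvr
  obtain ⟨c, hc, hu⟩ := Mod.H553.exists_const_mul_unit P E hV hz
  have hkey : ∃ k : ℕ, (w : ↥E) ^ k * c ∈ Mod.RE P E := by
    rcases (Mod.RE P E).mem_or_inv_mem c with h1 | h1
    · exact ⟨0, by simpa using h1⟩
    · have hc' : (⟨c⁻¹, h1⟩ : ↥(Mod.RE P E)) ≠ 0 := by
        intro h0
        exact inv_ne_zero hc (congrArg Subtype.val h0)
      obtain ⟨n, u, hu'⟩ := IsDiscreteValuationRing.eq_unit_mul_pow_irreducible hc' hw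
      refine ⟨n, ?_⟩
      have h2 : c⁻¹ = ((u : ↥(Mod.RE P E)) : ↥E) * (w : ↥E) ^ n := by
        have := congrArg (fun t : ↥(Mod.RE P E) => (t : ↥E)) hu'
        simpa using this
      have h5 : ((u⁻¹ : (↥(Mod.RE P E))ˣ) : ↥(Mod.RE P E)) * (u : ↥(Mod.RE P E)) = 1 :=
        Units.inv_mul u
      have h6 : (((u⁻¹ : (↥(Mod.RE P E))ˣ) : ↥(Mod.RE P E)) : ↥E) *
          ((u : ↥(Mod.RE P E)) : ↥E) = 1 := congrArg Subtype.val h5
      have h7 : (w : ↥E) ^ n * c * ((u : ↥(Mod.RE P E)) : ↥E) = 1 := by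
        have h8 : c * c⁻¹ = 1 := mul_inv_cancel₀ hc
        rw [h2] at h8
        rw [← h8]
        ring
      have h3 : (w : ↥E) ^ n * c = (((u⁻¹ : (↥(Mod.RE P E))ˣ) : ↥(Mod.RE P E)) : ↥E) :=
        (eq_inv_of_mul_eq_one_left h7).trans (eq_inv_of_mul_eq_one_left h6).symm
      rw [h3]
      exact ((u⁻¹ : (↥(Mod.RE P E))ˣ) : ↥(Mod.RE P E)).2
  obtain ⟨k, hk⟩ := hkey
  refine ⟨k, ?_⟩
  have e1 : (Mod.cE P E N w) ^ k * z =
      algebraMap ↥E ↥(Mod.FE E N) ((w : ↥E) ^ k * c) *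
        (z * (algebraMap ↥E ↥(Mod.FE E N) c)⁻¹) := by
    have hc0 : algebraMap ↥E ↥(Mod.FE E N) c ≠ 0 :=
      (map_ne_zero_iff _ (algebraMap ↥E ↥(Mod.FE E N)).injective).mpr hc
    rw [Mod.cE, map_mul, map_pow]
    field_simp
  rw [e1]
  refine V.mul_mem _ _ ((Mod.H553.algebraMap_mem_iff P E hV _).2 hk) ?_
  rw [← V.valuation_le_one_iff, hu]

end Val

/-! ## Kummer generators -/

section Kummer

variable {N : ℕ} [NeZero N]

/-- a `p`-th power is a Kummer function of the zero class -/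
theorem isKummerFn_pow (p : ℕ) {h : ↥(modularFunctionFieldBar N)} (hh : h ≠ 0) :
    IsKummerFn N p 0 (h ^ p) := by
  haveI := Fermat.Agent.Lib.HI.H864.hasPrincipalDivisors_FF N
  obtain ⟨D, hD, hdeg⟩ := HasPrincipalDivisors.exists_divisor (K := AlgebraicClosure ℚ) h hh
  refine ⟨pow_ne_zero _ hh, ⟨D, hdeg⟩, ?_, fun v => ?_⟩
  · refine (QuotientAddGroup.eq_zero_iff _).2 ?_
    rw [AddSubgroup.mem_addSubgroupOf]
    exact ⟨h, hh, fun v => hD v⟩
  · rw [← zpow_natCast, Place.ord_zpow, hD]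

/-- dividing a Kummer function by a `p`-th power -/
theorem isKummerFn_mul_inv_pow (p : ℕ) {x : JZero N} {f h : ↥(modularFunctionFieldBar N)}
    (hf : IsKummerFn N p x f) (hh : h ≠ 0) : IsKummerFn N p x (f * (h ^ p)⁻¹) := by
  obtain ⟨hf0, D, hD, hord⟩ := hf
  obtain ⟨hp0, D', hD', hord'⟩ := isKummerFn_pow (N := N) p hh
  refine ⟨mul_ne_zero hf0 (inv_ne_zero hp0), D - D', ?_, fun v => ?_⟩
  · have h1 : Pic0.mk (D - D') = Pic0.mk D - Pic0.mk D' := rfl
    rw [h1, hD, hD', sub_zero]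
  · rw [Place.ord_mul v hf0 (inv_ne_zero hp0), Place.ord_inv, hord, hord']
    simp only [AddSubgroupClass.coe_sub, Finsupp.sub_apply]
    ring

end Kummer

/-! ## The core -/

section Core

variable (M q : ℕ) [NeZero M] [NeZero q] [NeZero (M * q)]

/-- The standing data at a good level: the Gauss valuation ring `V∞`, the Fricke involution and
`V₀ = V∞ ∘ W`, with the common uniformiser `w`. -/
structure LevelCtx (A : ValuationSubring (AlgebraicClosure ℚ))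
    (E : IntermediateField ℚ (AlgebraicClosure ℚ)) (w : RE A E)
    (V : ValuationSubring ↥(Mod.FE E (M * q)))
    (W : ↥(Mod.FE E (M * q)) ≃ₐ[↥E] ↥(Mod.FE E (M * q))) : Prop where
  dvr : IsDiscreteValuationRing ↥(RE A E)
  setting : Mod.Setting A E M q w
  isVinf : Mod.IsVinf A E (M * q) V
  isFricke : Mod.IsFricke E (M * q) W
  iotaW : ∀ z : ↥(Mod.FE E (M * q)), iota E (modularFunctionFieldFull (M * q)) (W z) =
    Fermat.Agent.A2.H528.wF (M * q) (iota E (modularFunctionFieldFull (M * q)) z)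

variable {M q}
variable {A : ValuationSubring (AlgebraicClosure ℚ)}
  {E : IntermediateField ℚ (AlgebraicClosure ℚ)} {w : RE A E}
  {V : ValuationSubring ↥(Mod.FE E (M * q))}
  {W : ↥(Mod.FE E (M * q)) ≃ₐ[↥E] ↥(Mod.FE E (M * q))}

theorem LevelCtx.unif (h : LevelCtx M q A E w V W) :
    Fermat.Agent.A2.H48.IsUnif V (Mod.cE A E (M * q) w) :=
  (Mod.H553.vinfBasic A E w (M * q) (NeZero.ne _) h.dvr h.setting.unif V h.isVinf).1

theorem LevelCtx.W_cE (h : LevelCtx M q A E w V W) :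
    W (Mod.cE A E (M * q) w) = Mod.cE A E (M * q) w := W.commutes _

theorem LevelCtx.unif₀ (h : LevelCtx M q A E w V W) :
    Fermat.Agent.A2.H48.IsUnif
      (V.comap (W : ↥(Mod.FE E (M * q)) →+* ↥(Mod.FE E (M * q)))) (Mod.cE A E (M * q) w) :=
  isUnif_comap h.unif (W : ↥(Mod.FE E (M * q)) →+* ↥(Mod.FE E (M * q))) h.W_cE

theorem LevelCtx.ne (h : LevelCtx M q A E w V W) :
    V ≠ V.comap (W : ↥(Mod.FE E (M * q)) →+* ↥(Mod.FE E (M * q))) :=
  fun h' => Mod.H553.vzeroNe A E M q w h.setting V W h.isVinf h.isFricke h'.symm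

theorem LevelCtx.disc (h : LevelCtx M q A E w V W) {z : ↥(Mod.FE E (M * q))} (hz : z ≠ 0) :
    ∃ k : ℕ, (Mod.cE A E (M * q) w) ^ k * z ∈ V :=
  exists_pow_mul_mem h.dvr h.setting.unif h.isVinf hz

theorem LevelCtx.disc₀ (h : LevelCtx M q A E w V W) {z : ↥(Mod.FE E (M * q))} (hz : z ≠ 0) :
    ∃ k : ℕ, (Mod.cE A E (M * q) w) ^ k * z ∈
      V.comap (W : ↥(Mod.FE E (M * q)) →+* ↥(Mod.FE E (M * q))) := by
  obtain ⟨k, hk⟩ := h.disc ((map_ne_zero W).2 hz)
  refine ⟨k, ?_⟩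
  show W ((Mod.cE A E (M * q) w) ^ k * z) ∈ V
  rw [map_mul, map_pow, h.W_cE]
  exact hk

theorem pow_mul_mem_mono {F : Type*} [Field F] (V' : ValuationSubring F) {ϖ : F} (hϖ : ϖ ∈ V')
    (z : F) {k k' : ℕ} (hkk : k ≤ k') (hk : ϖ ^ k * z ∈ V') : ϖ ^ k' * z ∈ V' := by
  obtain ⟨d, rfl⟩ := Nat.exists_eq_add_of_le hkk
  rw [pow_add, mul_comm (ϖ ^ k), mul_assoc]
  exact V'.mul_mem _ _ (pow_mem hϖ d) hk

/-- **Step 1**: gluing the two `q`-th roots. -/
theorem LevelCtx.exists_split (h : LevelCtx M q A E w V W) (hq : q.Prime)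
    (hA : A.LiesOverPrime q) (yf ya yb : ↥(Mod.FE E (M * q))) (hya : ya ≠ 0) (hyb : yb ≠ 0)
    (h1 : (Fermat.Agent.A2.H553.VinfModular A hq.ne_zero hA (M * q)).valuation
      (iota E (modularFunctionFieldFull (M * q)) (yf * (ya ^ q)⁻¹) - 1) < 1)
    (h2 : (Fermat.Agent.A2.H553.VinfModular A hq.ne_zero hA (M * q)).valuation
      (Fermat.Agent.A2.H528.wF (M * q)
        (iota E (modularFunctionFieldFull (M * q)) (yf * (yb ^ q)⁻¹)) - 1) < 1) :
    ∃ g : ↥(Mod.FE E (M * q)), g ≠ 0 ∧ V.valuation (yf * (g ^ q)⁻¹ - 1) < 1 ∧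
      (V.comap (W : ↥(Mod.FE E (M * q)) →+* ↥(Mod.FE E (M * q)))).valuation
        (yf * (g ^ q)⁻¹ - 1) < 1 := by
  have hdvr := h.dvr
  have hV := h.isVinf
  obtain ⟨k₁, hk₁⟩ := h.disc (mul_ne_zero hyb (inv_ne_zero hya))
  obtain ⟨k₂, hk₂⟩ := h.disc₀ (mul_ne_zero hya (inv_ne_zero hyb))
  obtain ⟨g, hg0, hg1, hg2⟩ := exists_mul_approx h.unif h.unif₀ h.ne hya hyb (k₁ + k₂)
    (pow_mul_mem_mono V h.unif.mem _ (Nat.le_add_right _ _) hk₁)
    (pow_mul_mem_mono _ h.unif₀.mem _ (Nat.le_add_left _ _) hk₂)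
  refine ⟨g, hg0, ?_, ?_⟩
  · have e1 : yf * (g ^ q)⁻¹ = (yf * (ya ^ q)⁻¹) * ((g * ya⁻¹)⁻¹) ^ q := by
      have hyaq : ya ^ q ≠ 0 := pow_ne_zero _ hya
      rw [mul_inv, inv_inv, mul_pow, inv_pow]
      field_simp
    rw [e1]
    refine val_sub_one_mul ?_ (val_sub_one_pow (val_sub_one_inv hg1) q)
    rw [val_lt_one_iff_iota hdvr hV hq.ne_zero hA, map_sub, map_one]
    exact h1
  · have e1 : yf * (g ^ q)⁻¹ = (yf * (yb ^ q)⁻¹) * ((g * yb⁻¹)⁻¹) ^ q := by
      have hybq : yb ^ q ≠ 0 := pow_ne_zero _ hyb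
      rw [mul_inv, inv_inv, mul_pow, inv_pow]
      field_simp
    rw [e1]
    refine val_sub_one_mul ?_ (val_sub_one_pow (val_sub_one_inv hg2) q)
    rw [val_comap_lt_one V (W : ↥(Mod.FE E (M * q)) →+* ↥(Mod.FE E (M * q)))]
    show V.valuation (W (yf * (yb ^ q)⁻¹ - 1)) < 1
    rw [val_lt_one_iff_iota hdvr hV hq.ne_zero hA, map_sub, map_one, map_sub, map_one, h.iotaW]
    exact h2

/-- **Step 2**: on a chart whose two components are cut out by `V∞` and `V₀`, a function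
`≡ 1` at both valuations has constant residue `1` on both components. -/
theorem LevelCtx.constAt (h : LevelCtx M q A E w V W) (c : ↥(Mod.FE E (M * q)))
    (hCtx : ChartCtx E w c (Mod.chartAlg A E (M * q) c)) (hcV : c ∈ V)
    (hcV₀ : c ∈ V.comap (W : ↥(Mod.FE E (M * q)) →+* ↥(Mod.FE E (M * q))))
    (p₁ p₂ : Ideal ↥(Mod.chartAlg A E (M * q) c))
    (hc₁ : Mod.IsCut A E (M * q) w V (Mod.chartAlg A E (M * q) c) p₁)
    (hc₂ : Mod.IsCut A E (M * q) w (V.comap (W : ↥(Mod.FE E (M * q)) →+* ↥(Mod.FE E (M * q))))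
      (Mod.chartAlg A E (M * q) c) p₂)
    (h₁₂ : ¬ p₁ ≤ p₂) (h₂₁ : ¬ p₂ ≤ p₁)
    (hinf : p₁ ⊓ p₂ = Ideal.span {algebraMap ↥(RE A E) ↥(Mod.chartAlg A E (M * q) c) w})
    (y : ↥(Mod.FE E (M * q))) (hyV : V.valuation (y - 1) < 1)
    (hyV₀ : (V.comap (W : ↥(Mod.FE E (M * q)) →+* ↥(Mod.FE E (M * q)))).valuation (y - 1) < 1) :
    ConstAt (Mod.chartAlg A E (M * q) c) p₁ y ∧ ConstAt (Mod.chartAlg A E (M * q) c) p₂ y := by
  haveI hdvr : IsDiscreteValuationRing ↥(RE A E) := h.dvr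
  obtain ⟨-, hconstV, -⟩ :=
    Mod.H553.vinfBasic A E w (M * q) (NeZero.ne _) h.dvr h.setting.unif V h.isVinf
  have hcR : ∀ r : ↥(RE A E), algebraMap ↥(RE A E) ↥(Mod.FE E (M * q)) r ∈ V :=
    fun r => (hconstV (r : ↥E)).2 r.2
  have hcR₀ : ∀ r : ↥(RE A E), algebraMap ↥(RE A E) ↥(Mod.FE E (M * q)) r ∈
      V.comap (W : ↥(Mod.FE E (M * q)) →+* ↥(Mod.FE E (M * q))) := by
    intro r
    show W (algebraMap ↥E ↥(Mod.FE E (M * q)) (r : ↥E)) ∈ V
    rw [W.commutes]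
    exact hcR r
  obtain ⟨-, -, hfracB⟩ := H34.chart_instances' w c (Mod.chartAlg A E (M * q) c) hCtx
  haveI := hfracB
  have hBV : ∀ b : ↥(Mod.chartAlg A E (M * q) c), (b : ↥(Mod.FE E (M * q))) ∈ V := fun b =>
    Mod.H372.mem_of_isIntegralElem V (algebraMap ↥(RE A E) ↥(Mod.FE E (M * q))) c hcR hcV
      (Mod.H372.mem_chartAlg_iff.mp b.2)
  have hBV₀ : ∀ b : ↥(Mod.chartAlg A E (M * q) c), (b : ↥(Mod.FE E (M * q))) ∈
      V.comap (W : ↥(Mod.FE E (M * q)) →+* ↥(Mod.FE E (M * q))) := fun b =>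
    Mod.H372.mem_of_isIntegralElem _ (algebraMap ↥(RE A E) ↥(Mod.FE E (M * q))) c hcR₀ hcV₀
      (Mod.H372.mem_chartAlg_iff.mp b.2)
  have hctx₁ : CutCtx (Mod.chartAlg A E (M * q) c) V w p₁ p₂ :=
    { le := hBV
      unif := h.unif
      cut := hc₁
      inf_eq := hinf
      not_le := h₂₁ }
  have hctx₂ : CutCtx (Mod.chartAlg A E (M * q) c)
      (V.comap (W : ↥(Mod.FE E (M * q)) →+* ↥(Mod.FE E (M * q)))) w p₂ p₁ :=
    { le := hBV₀
      unif := h.unif₀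
      cut := hc₂
      inf_eq := by rw [inf_comm]; exact hinf
      not_le := h₁₂ }
  -- `y` as a fraction
  obtain ⟨a, b, hb, hab⟩ :=
    IsFractionRing.div_surjective (A := ↥(Mod.chartAlg A E (M * q) c)) y
  have hb0 : b ≠ 0 := nonZeroDivisors.ne_zero hb
  have hb0' : (b : ↥(Mod.FE E (M * q))) ≠ 0 := fun h0 => hb0 (Subtype.ext h0)
  have hyb' : y * (b : ↥(Mod.FE E (M * q))) = (a : ↥(Mod.FE E (M * q))) := by
    rw [← hab]
    exact div_mul_cancel₀ _ hb0'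
  obtain ⟨k, hk⟩ := h.disc (inv_ne_zero hb0')
  obtain ⟨k', hk'⟩ := h.disc₀ (inv_ne_zero hb0')
  exact ⟨hctx₁.constAt_of_val_sub_one y hyV ⟨k, a, b, hb0, hk, hyb'⟩,
    hctx₂.constAt_of_val_sub_one y hyV₀ ⟨k', a, b, hb0, hk', hyb'⟩⟩

end Core

end Fermat.Agent.Ribet.H714

end
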