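import Fermat.Agent.Ribet.H714.Dict
import Fermat.Agent.A2.Mod.H13.S1
import Fermat.Agent.A2.Mod.H753.IndInf
import Fermat.Agent.A2.Mod.H753.IndZero
import Fermat.Agent.A2.Mod.H142.S2Final
import Fermat.Agent.A2.Mod.H372.S3Final
import Fermat.Agent.A2.Mod.H732.S4
import Fermat.Agent.A2.Mod.H751.Stau
import Fermat.Agent.A2.Mod.H216.GoodRedAll

/-!
# RIBET, wall at `p`, target S2 — leaf DICT, UNCONDITIONAL at the ready levels (helper714)

MOD at `q = p` is on main (`A2/Mod`: `H13.s1`, `H142.s2`, `H372.s3`, `H732.s4`, `H751.stau_of_s1`,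
`H216.goodRedStatement`), at the levels carrying the auxiliary prime (`q = 3 → 2 ∣ M`,
`q = 2 → 3 ∣ M`).  Hence:

* `modAt`         : `ModAt A M q` at the ready levels;
* **`dictFor`**   : `H103.S2.DictFor p M' A (H884.splitPart p M' A)` for every prime `p ∤ M'`
                    with `p = 3 → 2 ∣ M'`, `p = 2 → 3 ∣ M'`;
* `dictFor_odd`   : the same for odd `p` (only `p = 3 → 2 ∣ M'`);
* `dictFor_five`  : the same for `p ≥ 5` (no extra hypothesis);
* `s2For_of_nc`   : `H103.AlgP.AlgPStatement → H103.S2.NCFor p M' A →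
                      H944.Wall.S2For p M' A (H884.splitPart p M' A)` at the ready levels.
-/

set_option autoImplicit false
set_option linter.style.haveILetI false
set_option linter.unusedSectionVars false
set_option synthInstance.maxHeartbeats 400000
set_option maxHeartbeats 4000000

noncomputable section

namespace Fermat.Agent.Ribet.H714

open AlgebraicCurve ModularCurve
open Fermat.Agent.A2 Fermat.Agent.A2.Alg
open Fermat.Agent.Ribet.H103.S2

/-- **MOD at the ready levels** (all on main). -/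
theorem modAt (M q : ℕ) [NeZero M] [NeZero q] (hq : q.Prime) (hqM : ¬ q ∣ M)
    (h3 : q = 3 → 2 ∣ M) (h2 : q = 2 → 3 ∣ M)
    (A : ValuationSubring (AlgebraicClosure ℚ)) (hA : A.LiesOverPrime q) : ModAt A M q where
  s1 := fun E w _ =>
    Mod.H13.s1 (Mod.H553.vzeroNe A E M q w) (Mod.H31.deg E M q) (Mod.H753.indInf A E M q w)
      (Mod.H753.indZero A E M q w)
  s2 := fun E w _ => Mod.H142.s2 A E M q w
  s3 := fun E w _ => Mod.H372.s3 A E M q w
  s4 := fun E w _ => Mod.H732.s4 A E M q w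
  stau := fun E w _ =>
    Mod.H751.stau_of_s1 A E M q w
      (Mod.H13.s1 (Mod.H553.vzeroNe A E M q w) (Mod.H31.deg E M q) (Mod.H753.indInf A E M q w)
        (Mod.H753.indZero A E M q w))
  good := fun E hE => Top.H216.goodRedStatement A E M q hq hqM h3 h2 hA hE

/-- **Leaf DICT**, unconditional at the ready levels. -/
theorem dictFor (p M' : ℕ) [NeZero M'] [NeZero p] [NeZero (p * M')] (hp : p.Prime)
    (hpM : ¬ p ∣ M') (h3 : p = 3 → 2 ∣ M') (h2 : p = 2 → 3 ∣ M')
    (A : ValuationSubring (AlgebraicClosure ℚ)) (hA : A.LiesOverPrime p) :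
    DictFor p M' A (Fermat.Agent.Ribet.H884.splitPart p M' A) :=
  dictFor_of_mod p M' hp hpM A hA (modAt M' p hp hpM h3 h2 A hA)

/-- **Leaf DICT** for odd `p` (`p = 3` needs `2 ∣ M'`). -/
theorem dictFor_odd (p M' : ℕ) [NeZero M'] [NeZero p] [NeZero (p * M')] (hp : p.Prime)
    (hp2 : p ≠ 2) (hpM : ¬ p ∣ M') (h3 : p = 3 → 2 ∣ M')
    (A : ValuationSubring (AlgebraicClosure ℚ)) (hA : A.LiesOverPrime p) :
    DictFor p M' A (Fermat.Agent.Ribet.H884.splitPart p M' A) :=
  dictFor p M' hp hpM h3 (fun h => absurd h hp2) A hA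

/-- **Leaf DICT** for `p ≥ 5`. -/
theorem dictFor_five (p M' : ℕ) [NeZero M'] [NeZero p] [NeZero (p * M')] (hp : p.Prime)
    (h5 : 5 ≤ p) (hpM : ¬ p ∣ M')
    (A : ValuationSubring (AlgebraicClosure ℚ)) (hA : A.LiesOverPrime p) :
    DictFor p M' A (Fermat.Agent.Ribet.H884.splitPart p M' A) :=
  dictFor p M' hp hpM (fun h => by omega) (fun h => by omega) A hA

/-- **S2 from ALG-p and NC** at the ready levels (DICT plugged in). -/
theorem s2For_of_nc (hALG : Fermat.Agent.Ribet.H103.AlgP.AlgPStatement)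
    (p M' : ℕ) [NeZero M'] [NeZero p] [NeZero (p * M')] (hp : p.Prime)
    (hpM : ¬ p ∣ M') (h3 : p = 3 → 2 ∣ M') (h2 : p = 2 → 3 ∣ M')
    (A : ValuationSubring (AlgebraicClosure ℚ)) (hA : A.LiesOverPrime p)
    (hNC : NCFor p M' A) :
    Fermat.Agent.Ribet.H944.Wall.S2For p M' A (Fermat.Agent.Ribet.H884.splitPart p M' A) :=
  s2For_of_leaves hALG p M' hp A hA _ (dictFor p M' hp hpM h3 h2 A hA) hNC

end Fermat.Agent.Ribet.H714

end
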